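/-
S31-T (helper8): every element of `G_ℚ` agrees on a given finite normal extension with a power of a
Frobenius element at a prime outside a given finite set (division form of the Frobenius density
theorem).
-/
import Fermat.Agent.Lib.FrobDensity.Main

set_option autoImplicit false
set_option linter.style.haveILetI false
set_option linter.unusedSectionVars false

namespace Fermat.Agent.S31T

local notation "Qbar" => AlgebraicClosure ℚ
local notation "GQ" => (AlgebraicClosure ℚ ≃ₐ[ℚ] AlgebraicClosure ℚ)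

theorem s31t_pow_apply_eq (τ : GQ) (x : Qbar) (d : ℕ) (h : (τ ^ d) x = x) (c : ℕ) :
    ((τ ^ d) ^ c) x = x := by
  induction c with
  | zero => rfl
  | succ c ih => rw [pow_succ, AlgEquiv.mul_apply, h, ih]

/-- **every element is a Frobenius power on a finite level** -/
theorem s31t_exists_frobenius_pow (L : IntermediateField ℚ Qbar) [FiniteDimensional ℚ L]
    [Normal ℚ L] (τ : GQ) (T : Finset ℕ) :
    ∃ l : ℕ, l.Prime ∧ l ∉ T ∧ ∃ (P : ValuationSubring Qbar) (φ : GQ),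
      P.LiesOverPrime l ∧ P.IsFrobeniusAt φ l ∧ ∃ b : ℕ, ∀ x ∈ L, τ x = (φ ^ b) x := by
  classical
  obtain ⟨l, hl, hlT, P, φ, hPl, hφ, -, e, he, hφe⟩ :=
    Fermat.Agent.FrobDensity.exists_frobenius_generating L τ T
  refine ⟨l, hl, hlT, P, φ, hPl, hφ, ?_⟩
  set r := AlgEquiv.restrictNormalHom (F := ℚ) (K₁ := Qbar) L τ with hr
  set d := orderOf r with hd
  have hdpos : 0 < d := orderOf_pos r
  have hτd : ∀ x ∈ L, (τ ^ d) x = x := by
    intro x hx
    have h1 : algebraMap ↥L Qbar ((AlgEquiv.restrictNormalHom (F := ℚ)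
        (K₁ := Qbar) ↥L (τ ^ d)) ⟨x, hx⟩) = (τ ^ d) (algebraMap ↥L Qbar ⟨x, hx⟩) :=
      AlgEquiv.restrictNormal_commutes (τ ^ d) ↥L ⟨x, hx⟩
    rw [map_pow, ← hr, hd, pow_orderOf_eq_one] at h1
    exact h1.symm
  -- `φ ^ b` agrees with `τ ^ (e * b)` on `L`
  have hτL : ∀ (c : ℕ), ∀ x ∈ L, (τ ^ c) x ∈ L := by
    intro c x hx
    have h1 : algebraMap ↥L Qbar ((AlgEquiv.restrictNormalHom (F := ℚ)
        (K₁ := Qbar) ↥L (τ ^ c)) ⟨x, hx⟩) = (τ ^ c) (algebraMap ↥L Qbar ⟨x, hx⟩) :=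
      AlgEquiv.restrictNormal_commutes (τ ^ c) ↥L ⟨x, hx⟩
    have h2 : (τ ^ c) x = algebraMap ↥L Qbar ((AlgEquiv.restrictNormalHom (F := ℚ)
        (K₁ := Qbar) ↥L (τ ^ c)) ⟨x, hx⟩) := h1.symm
    rw [h2]
    exact Subtype.mem _
  have hφb : ∀ (b : ℕ), ∀ x ∈ L, (φ ^ b) x = (τ ^ (e * b)) x := by
    intro b
    induction b with
    | zero => intro x _; rw [mul_zero, pow_zero, pow_zero]
    | succ b ih =>
      intro x hx
      rw [pow_succ, AlgEquiv.mul_apply, hφe x hx, ih _ (hτL e x hx), ← AlgEquiv.mul_apply,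
        ← pow_add, mul_add, mul_one]
  rcases Nat.eq_or_lt_of_le (Nat.succ_le_of_lt hdpos) with h1 | h1
  · refine ⟨0, fun x hx => ?_⟩
    rw [pow_zero]
    have := hτd x hx
    rwa [← h1, pow_one] at this
  · obtain ⟨b, -, hm⟩ := Nat.exists_mul_mod_eq_one_of_coprime he h1
    have hbc : e * b = 1 + d * (e * b / d) := by
      have := Nat.div_add_mod (e * b) d
      rw [hm] at this
      omega
    refine ⟨b, fun x hx => ?_⟩
    rw [hφb b x hx, hbc, pow_add, pow_one, pow_mul, AlgEquiv.mul_apply,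
      s31t_pow_apply_eq τ x d (hτd x hx)]

end Fermat.Agent.S31T
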