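/-
S31-T (helper8): the universal power-trace sequence `P_n(a, d)` with `tr (M ^ n) = P_n (tr M, det M)`
for `2 × 2` matrices, and its naturality.
-/
import Mathlib
import Fermat.Agent.Lib.T1.Asm.Res.DescentBasic

set_option autoImplicit false
set_option linter.style.haveILetI false

open Polynomial Matrix

namespace Fermat.Agent.S31T

variable {R : Type*} [CommRing R]

/-- the power-trace sequence: `P 0 = 2`, `P 1 = a`, `P (n + 2) = a * P (n + 1) - d * P n` -/
def s31tPow (a d : R) : ℕ → R
  | 0 => 2
  | 1 => a
  | (n + 2) => a * s31tPow a d (n + 1) - d * s31tPow a d n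

@[simp] theorem s31tPow_zero (a d : R) : s31tPow a d 0 = 2 := rfl

@[simp] theorem s31tPow_one (a d : R) : s31tPow a d 1 = a := rfl

theorem s31tPow_succ_succ (a d : R) (n : ℕ) :
    s31tPow a d (n + 2) = a * s31tPow a d (n + 1) - d * s31tPow a d n := rfl

theorem map_s31tPow {R' : Type*} [CommRing R'] (f : R →+* R') (a d : R) (n : ℕ) :
    f (s31tPow a d n) = s31tPow (f a) (f d) n := by
  induction n using Nat.strong_induction_on with
  | _ n ih =>
    match n with
    | 0 => rw [s31tPow_zero, s31tPow_zero, map_ofNat]
    | 1 => rw [s31tPow_one, s31tPow_one]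
    | n + 2 =>
      rw [s31tPow_succ_succ, s31tPow_succ_succ, map_sub, map_mul, map_mul, ih (n + 1) (by omega),
        ih n (by omega)]

/-- traces of powers of a `2 × 2` matrix -/
theorem s31t_trace_pow_matrix (M : Matrix (Fin 2) (Fin 2) R) (n : ℕ) :
    (M ^ n).trace = s31tPow M.trace M.det n := by
  induction n using Nat.strong_induction_on with
  | _ n ih =>
    match n with
    | 0 =>
      rw [pow_zero, Matrix.trace_one]
      simp
    | 1 => rw [pow_one, s31tPow_one]
    | n + 2 =>
      rw [Fermat.Agent.T1.ter_trace_pow_succ_succ, s31tPow_succ_succ, ih (n + 1) (by omega),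
        ih n (by omega)]

/-- trace and determinant of an endomorphism of a free module of rank two from its characteristic
polynomial -/
theorem s31t_trace_det_of_charpoly {V : Type*} [AddCommGroup V] [Module R V] [Module.Free R V]
    [Module.Finite R V] [Nontrivial R] (b : Module.Basis (Fin 2) R V) (f : Module.End R V)
    (t d : R) (hf : LinearMap.charpoly f = X ^ 2 - C t * X + C d) :
    (LinearMap.toMatrix b b f).trace = t ∧ (LinearMap.toMatrix b b f).det = d := by
  classical
  have h1 := LinearMap.charpoly_toMatrix f b
  rw [hf, Matrix.charpoly_fin_two] at h1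
  constructor
  · have h2 : (X ^ 2 - C (LinearMap.toMatrix b b f).trace * X +
        C (LinearMap.toMatrix b b f).det).coeff 1 = (X ^ 2 - C t * X + C d).coeff 1 := by
      rw [h1]
    simpa [coeff_X, coeff_C] using h2
  · have h2 : (X ^ 2 - C (LinearMap.toMatrix b b f).trace * X +
        C (LinearMap.toMatrix b b f).det).coeff 0 = (X ^ 2 - C t * X + C d).coeff 0 := by
      rw [h1]
    simpa [coeff_X, coeff_C] using h2

/-- traces of powers of an endomorphism of a free module of rank two with given characteristic
polynomial -/
theorem s31t_trace_pow {V : Type*} [AddCommGroup V] [Module R V] [Module.Free R V]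
    [Module.Finite R V] [Nontrivial R] (hV : Module.finrank R V = 2) (f : Module.End R V)
    (t d : R) (hf : LinearMap.charpoly f = X ^ 2 - C t * X + C d) (n : ℕ) :
    LinearMap.trace R V (f ^ n) = s31tPow t d n := by
  classical
  let b : Module.Basis (Fin 2) R V := Module.finBasisOfFinrankEq R V hV
  obtain ⟨ht, hd⟩ := s31t_trace_det_of_charpoly b f t d hf
  have hpow : LinearMap.toMatrix b b (f ^ n) = (LinearMap.toMatrix b b f) ^ n :=
    map_pow (LinearMap.toMatrixAlgEquiv b) f n
  rw [LinearMap.trace_eq_matrix_trace R b, hpow, s31t_trace_pow_matrix, ht, hd]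

end Fermat.Agent.S31T
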