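/-
S31-T (helper8): congruences for traces of adically continuous Galois representations.  If `g` and
`h` agree on the finite level which trivialises `ρ` modulo `𝔪 ^ n`, then `tr ρ(g) ≡ tr ρ(h)` modulo
`𝔪 ^ n`; if `g` agrees there with `φ ^ b` and `ρ(φ)` has characteristic polynomial
`X² - a X + d`, then `tr ρ(g) ≡ P_b(a, d)` modulo `𝔪 ^ n`.
-/
import Mathlib
import Fermat.Prelude.Def_GaloisRep_Adic
import Fermat.Agent.Lib.S31.Trace.PowTrace

set_option autoImplicit false
set_option linter.style.haveILetI false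
set_option linter.unusedSectionVars false

open Polynomial IsLocalRing

namespace Fermat.Agent.S31T

local notation "Qbar" => AlgebraicClosure ℚ
local notation "GQ" => (AlgebraicClosure ℚ ≃ₐ[ℚ] AlgebraicClosure ℚ)

section LinAlg

variable {R V : Type*} [CommRing R] [AddCommGroup V] [Module R V]

theorem s31t_functional_mem (I : Ideal R) (l : V →ₗ[R] R) {x : V}
    (hx : x ∈ I • (⊤ : Submodule R V)) : l x ∈ I := by
  refine Submodule.smul_induction_on hx ?_ ?_
  · intro a ha w _
    rw [map_smul, smul_eq_mul]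
    exact I.mul_mem_right _ ha
  · intro x y hx hy
    rw [map_add]
    exact I.add_mem hx hy

theorem s31t_map_mem_smul_top (I : Ideal R) (g : Module.End R V) {x : V}
    (hx : x ∈ I • (⊤ : Submodule R V)) : g x ∈ I • (⊤ : Submodule R V) := by
  refine Submodule.smul_induction_on hx ?_ ?_
  · intro a ha w _
    rw [map_smul]
    exact Submodule.smul_mem_smul ha Submodule.mem_top
  · intro x y hx hy
    rw [map_add]
    exact Submodule.add_mem _ hx hy

/-- the trace of an endomorphism with values in `I V` lies in `I` -/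
theorem s31t_trace_mem_of_forall_mem [Module.Free R V] [Module.Finite R V] (I : Ideal R)
    (f : Module.End R V) (hf : ∀ v, f v ∈ I • (⊤ : Submodule R V)) :
    LinearMap.trace R V f ∈ I := by
  classical
  let b := Module.Free.chooseBasis R V
  rw [LinearMap.trace_eq_matrix_trace R b, Matrix.trace]
  refine I.sum_mem fun i _ => ?_
  rw [Matrix.diag_apply, LinearMap.toMatrix_apply]
  exact s31t_functional_mem I (b.coord i) (hf (b i))

end LinAlg

variable {R : Type} [CommRing R] [IsLocalRing R]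

/-- two elements which agree on the level trivialising `ρ` modulo `𝔪 ^ n` have congruent traces -/
theorem s31t_trace_sub_mem (ρ : GaloisRepAdic R) (n : ℕ) (L : IntermediateField ℚ Qbar)
    (hL : ∀ σ : GQ, (∀ x ∈ L, σ x = x) →
      ∀ v : ρ.V, ρ.ρ σ v - v ∈ (maximalIdeal R ^ n) • (⊤ : Submodule R ρ.V))
    (g h : GQ) (hgh : ∀ x ∈ L, g x = h x) :
    LinearMap.trace R ρ.V (ρ.ρ g) - LinearMap.trace R ρ.V (ρ.ρ h) ∈ maximalIdeal R ^ n := by
  have hu : ∀ x ∈ L, (h⁻¹ * g) x = x := by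
    intro x hx
    change h⁻¹ (g x) = x
    rw [hgh x hx]
    exact h.symm_apply_apply x
  have hg : ρ.ρ g = ρ.ρ h * ρ.ρ (h⁻¹ * g) := by
    rw [← map_mul, mul_inv_cancel_left]
  have h1 : ρ.ρ g - ρ.ρ h = ρ.ρ h * (ρ.ρ (h⁻¹ * g) - 1) := by
    rw [mul_sub, mul_one, ← hg]
  rw [← map_sub, h1]
  apply s31t_trace_mem_of_forall_mem
  intro v
  rw [Module.End.mul_apply]
  apply s31t_map_mem_smul_top
  rw [LinearMap.sub_apply, Module.End.one_apply]
  exact hL _ hu v

/-- the trace of a Frobenius power -/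
theorem s31t_trace_frob_pow (ρ : GaloisRepAdic R) (φ : GQ) (a d : R)
    (hφ : LinearMap.charpoly (ρ.ρ φ) = X ^ 2 - C a * X + C d) (b : ℕ) :
    LinearMap.trace R ρ.V (ρ.ρ (φ ^ b)) = s31tPow a d b := by
  rw [map_pow]
  exact s31t_trace_pow ρ.finrank_eq (ρ.ρ φ) a d hφ b

/-- **the trace congruence**: if `g` agrees with `φ ^ b` on the level trivialising `ρ` modulo
`𝔪 ^ n`, then `tr ρ(g) ≡ P_b(a, d)` -/
theorem s31t_trace_congr (ρ : GaloisRepAdic R) (n : ℕ) (L : IntermediateField ℚ Qbar)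
    (hL : ∀ σ : GQ, (∀ x ∈ L, σ x = x) →
      ∀ v : ρ.V, ρ.ρ σ v - v ∈ (maximalIdeal R ^ n) • (⊤ : Submodule R ρ.V))
    (g φ : GQ) (b : ℕ) (hg : ∀ x ∈ L, g x = (φ ^ b) x) (a d : R)
    (hφ : LinearMap.charpoly (ρ.ρ φ) = X ^ 2 - C a * X + C d) :
    LinearMap.trace R ρ.V (ρ.ρ g) - s31tPow a d b ∈ maximalIdeal R ^ n := by
  rw [← s31t_trace_frob_pow ρ φ a d hφ b]
  exact s31t_trace_sub_mem ρ n L hL g (φ ^ b) hg

end Fermat.Agent.S31T
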