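/-
S31-T (helper8): a residually absolutely irreducible representation over a local ring is trivial on
every `σ` with `tr ρ(g σ) = tr ρ(g)` for all `g` (Burnside in Gram form + the trace pairing).
-/
import Mathlib
import Fermat.Prelude.Def_GaloisRep_Adic
import Fermat.Agent.Lib.S53.GramBurnside

set_option autoImplicit false
set_option linter.style.haveILetI false
set_option linter.unusedSectionVars false

open Polynomial IsLocalRing Matrix

namespace Fermat.Agent.S31T

local notation "Qbar" => AlgebraicClosure ℚ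
local notation "GQ" => (AlgebraicClosure ℚ ≃ₐ[ℚ] AlgebraicClosure ℚ)

open Fermat.Agent.S53Lib (FrameIdx gram gramMat gram_apply gramMat_apply)

/-- a `2 × 2` matrix which is orthogonal to everything for the trace pairing vanishes -/
theorem s31t_eq_zero_of_trace_mul {A : Type*} [CommRing A] (M : Matrix (Fin 2) (Fin 2) A)
    (h : ∀ X : Matrix (Fin 2) (Fin 2) A, (M * X).trace = 0) : M = 0 := by
  ext i j
  have h1 := h (Matrix.single j i 1)
  rw [Matrix.trace_mul_comm, Matrix.trace, Finset.sum_eq_single j] at h1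
  · simpa [Matrix.diag_apply, Matrix.mul_apply, Matrix.single_apply] using h1
  · intro k _ hk
    simp [Matrix.diag_apply, Matrix.mul_apply, hk.symm]
  · intro hj
    exact absurd (Finset.mem_univ j) hj

variable {T : Type} [CommRing T] [IsLocalRing T]

theorem s31t_trace_residual (ρ : GaloisRepAdic T) (τ : GQ) :
    LinearMap.trace (ResidueField T) ρ.residual.V (ρ.residual.ρ τ)
      = residue T (LinearMap.trace T ρ.V (ρ.ρ τ)) := by
  show LinearMap.trace (ResidueField T) (TensorProduct T (ResidueField T) ρ.V)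
      ((ρ.ρ τ).baseChange (ResidueField T)) = _
  rw [LinearMap.trace_baseChange]
  rfl

/-- **trace-invariance implies triviality** -/
theorem s31t_eq_one_of_trace (ρ : GaloisRepAdic T) (habs : ρ.residual.IsAbsolutelyIrreducible)
    (σ : GQ)
    (h : ∀ g : GQ, LinearMap.trace T ρ.V (ρ.ρ (g * σ)) = LinearMap.trace T ρ.V (ρ.ρ g)) :
    ρ.ρ σ = 1 := by
  classical
  obtain ⟨g, hg⟩ := Fermat.Agent.S53Lib.exists_gram_ne_zero ρ.residual habs
  let b : Module.Basis (Fin 2) T ρ.V := Module.finBasisOfFinrankEq T ρ.V ρ.finrank_eq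
  let r : GQ →* Matrix (Fin 2) (Fin 2) T :=
    ((LinearMap.toMatrixAlgEquiv b : Module.End T ρ.V ≃ₐ[T] Matrix (Fin 2) (Fin 2) T) :
      Module.End T ρ.V →* Matrix (Fin 2) (Fin 2) T).comp ρ.ρ
  have hr : ∀ τ, (r τ).trace = LinearMap.trace T ρ.V (ρ.ρ τ) := by
    intro τ
    rw [LinearMap.trace_eq_matrix_trace T b]
    rfl
  -- the Gram determinant is a unit
  have hunit : IsUnit (gramMat (fun a => r (g a))).det := by
    rw [← Fermat.Agent.S53Lib.gram_trace_eq_gramMat]
    have h1 : gram (fun τ => LinearMap.trace (ResidueField T) ρ.residual.V (ρ.residual.ρ τ)) g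
        = gram (fun τ => residue T ((r τ).trace)) g := by
      congr 1
      funext τ
      rw [s31t_trace_residual, hr]
    rw [h1, Fermat.Agent.S53Lib.det_gram_map] at hg
    by_contra hnu
    exact hg ((residue_eq_zero_iff _).mpr hnu)
  obtain ⟨-, hspan⟩ := (Fermat.Agent.S53Lib.isUnit_det_gramMat_iff_basis _).mp hunit
  -- the matrix of `ρ σ - 1` is orthogonal to everything
  have hM : r σ - 1 = 0 := by
    apply s31t_eq_zero_of_trace_mul
    intro X
    have hX : X ∈ Submodule.span T (Set.range fun a => r (g a)) := by rw [hspan]; trivial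
    induction hX using Submodule.span_induction with
    | mem X hX =>
      obtain ⟨a, rfl⟩ := hX
      show ((r σ - 1) * r (g a)).trace = 0
      rw [sub_mul, one_mul, Matrix.trace_sub, Matrix.trace_mul_comm, ← map_mul, hr, hr, h,
        sub_self]
    | zero => rw [mul_zero, Matrix.trace_zero]
    | add X Y _ _ hX hY => rw [mul_add, Matrix.trace_add, hX, hY, add_zero]
    | smul c X _ hX => rw [Matrix.mul_smul, Matrix.trace_smul, hX, smul_zero]
  have h1 : r σ = 1 := sub_eq_zero.mp hM
  have h2 : LinearMap.toMatrixAlgEquiv b (ρ.ρ σ) = LinearMap.toMatrixAlgEquiv b 1 := by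
    rw [map_one]
    exact h1
  exact (LinearMap.toMatrixAlgEquiv b).injective h2

end Fermat.Agent.S31T
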