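/-
S31-T (helper8): the trace form of a reduced commutative ring which is finite free over `ℤ` is
nondegenerate (Fitting idempotent argument).
-/
import Mathlib

set_option autoImplicit false
set_option linter.style.haveILetI false

open scoped TensorProduct

namespace Fermat.Agent.S31T

variable {𝕋 : Type*} [CommRing 𝕋] [Module.Free ℤ 𝕋] [Module.Finite ℤ 𝕋]

/-- the trace of `1 ⊗ w` on the base change -/
theorem s31t_trace_tmul (F : Type*) [Field F] (w : 𝕋) :
    Algebra.trace F (F ⊗[ℤ] 𝕋) (1 ⊗ₜ[ℤ] w) = algebraMap ℤ F (Algebra.trace ℤ 𝕋 w) := by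
  rw [Algebra.trace_apply, ← Algebra.baseChange_lmul, LinearMap.trace_baseChange,
    Algebra.trace_apply]

/-- **nondegeneracy of the trace form** of a reduced ring which is finite free over `ℤ` -/
theorem s31t_eq_zero_of_trace_mul_eq_zero [IsReduced 𝕋] (z : 𝕋)
    (hz : ∀ y : 𝕋, Algebra.trace ℤ 𝕋 (z * y) = 0) : z = 0 := by
  classical
  let B := ℚ ⊗[ℤ] 𝕋
  haveI : Module.Finite ℚ B := Module.Finite.base_change ℤ ℚ 𝕋
  haveI : IsArtinianRing B := IsArtinianRing.of_finite ℚ B
  set z' : B := 1 ⊗ₜ[ℤ] z with hz'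
  -- the trace of `z' * y''` vanishes
  have htr : ∀ y'' : B, Algebra.trace ℚ B (z' * y'') = 0 := by
    intro y''
    induction y'' using TensorProduct.induction_on with
    | zero => rw [mul_zero, map_zero]
    | tmul q t =>
      have h1 : z' * (q ⊗ₜ[ℤ] t) = q • ((1 : ℚ) ⊗ₜ[ℤ] (z * t)) := by
        rw [hz', Algebra.TensorProduct.tmul_mul_tmul, one_mul, TensorProduct.smul_tmul',
          smul_eq_mul, mul_one]
      rw [h1, map_smul, s31t_trace_tmul, hz, map_zero, smul_zero]
    | add x y hx hy => rw [mul_add, map_add, hx, hy, add_zero]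
  obtain ⟨n, y, hy⟩ := IsArtinian.exists_pow_succ_smul_dvd z' (1 : B)
  rw [smul_eq_mul, smul_eq_mul, mul_one] at hy
  set u : B := z' * y with hu
  have h1 : z' ^ n * u = z' ^ n := by
    rw [hu, ← mul_assoc, ← pow_succ, hy]
  have h2 : ∀ k : ℕ, z' ^ n * u ^ k = z' ^ n := by
    intro k
    induction k with
    | zero => rw [pow_zero, mul_one]
    | succ k ih => rw [pow_succ, ← mul_assoc, ih, h1]
  set e : B := u ^ (n + 1) with he
  have he1 : e = z' ^ n * (z' * y ^ (n + 1)) := by
    rw [he, hu, mul_pow, pow_succ z' n]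
    ring
  have hidem : e * e = e := by
    calc e * e = (z' ^ n * u ^ (n + 1)) * (z' * y ^ (n + 1)) := by
          rw [he1, ← he]; ring
      _ = e := by rw [h2, ← he1]
  have hetr : Algebra.trace ℚ B e = 0 := by
    have : e = z' * (z' ^ n * y ^ (n + 1)) := by rw [he1]; ring
    rw [this]
    exact htr _
  have hidem' : IsIdempotentElem (Algebra.lmul ℚ B e) := by
    show Algebra.lmul ℚ B e * Algebra.lmul ℚ B e = Algebra.lmul ℚ B e
    rw [← map_mul, hidem]
  have he0 : Algebra.lmul ℚ B e = 0 :=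
    (LinearMap.IsIdempotentElem.trace_eq_zero_iff hidem').mp (by
      rw [← Algebra.trace_apply]; exact hetr)
  have he0' : e = 0 := by
    have := LinearMap.congr_fun he0 1
    simpa using this
  have hzn : z' ^ n = 0 := by
    rw [← h2 (n + 1), ← he, he0', mul_zero]
  have hzn' : (Algebra.TensorProduct.includeRight : 𝕋 →ₐ[ℤ] ℚ ⊗[ℤ] 𝕋) (z ^ n) = 0 := by
    rw [map_pow]
    exact hzn
  have hinj : Function.Injective (Algebra.TensorProduct.includeRight : 𝕋 →ₐ[ℤ] ℚ ⊗[ℤ] 𝕋) :=
    Algebra.TensorProduct.includeRight_injective (algebraMap ℤ ℚ).injective_int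
  have : z ^ n = 0 := hinj (hzn'.trans (map_zero _).symm)
  exact IsReduced.eq_zero z ⟨n, this⟩

/-- the Gram determinant of the trace form is nonzero -/
theorem s31t_det_traceMatrix_ne_zero [IsReduced 𝕋] {ι : Type*} [Fintype ι] [DecidableEq ι]
    (b : Module.Basis ι ℤ 𝕋) : (Algebra.traceMatrix ℤ b).det ≠ 0 := by
  intro hdet
  obtain ⟨v, hv0, hv⟩ := Matrix.exists_mulVec_eq_zero_iff.mpr hdet
  set z : 𝕋 := ∑ j, v j • b j with hz
  have hzb : ∀ i, Algebra.trace ℤ 𝕋 (z * b i) = 0 := by
    intro i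
    have h1 := congrFun hv i
    rw [Matrix.mulVec, dotProduct] at h1
    simp only [Algebra.traceMatrix_apply, Algebra.traceForm_apply, Pi.zero_apply] at h1
    rw [hz, Finset.sum_mul, map_sum, ← h1]
    refine Finset.sum_congr rfl fun j _ => ?_
    rw [smul_mul_assoc, map_smul, smul_eq_mul, mul_comm (b j) (b i), mul_comm]
  have hz0 : z = 0 := by
    apply s31t_eq_zero_of_trace_mul_eq_zero
    intro y
    rw [← b.sum_repr y, Finset.mul_sum, map_sum]
    refine Finset.sum_eq_zero fun i _ => ?_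
    rw [mul_smul_comm, map_smul, hzb, smul_zero]
  apply hv0
  have := b.linearIndependent
  rw [Fintype.linearIndependent_iff] at this
  funext j
  exact this v (hz ▸ hz0) j

end Fermat.Agent.S31T
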