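/-
S31-T (helper8): the congruence lemma.  For a reduced commutative ring `𝕋`, finite free over `ℤ`, an
element all of whose values under the characters `𝕋 → Ω` (`Ω` algebraically closed) are divisible by
`p ^ (m + c)` (inside a subring `A` of `Ω` which is integrally closed over `ℤ` and in which
divisibility of integers by powers of `p` is the usual one) is divisible by `p ^ m` in `𝕋`.
-/
import Mathlib
import Fermat.Agent.Lib.S31.Trace.CommonEigen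
import Fermat.Agent.Lib.S31.Trace.TraceForm

set_option autoImplicit false
set_option linter.style.haveILetI false

open scoped TensorProduct

namespace Fermat.Agent.S31T

variable {𝕋 : Type*} [CommRing 𝕋] [Module.Free ℤ 𝕋] [Module.Finite ℤ 𝕋]

/-- the regular representation of `𝕋` over `Ω` -/
noncomputable def s31tReg (Ω : Type*) [Field Ω] : 𝕋 →+* Module.End Ω (Ω ⊗[ℤ] 𝕋) :=
  (Algebra.lmul Ω (Ω ⊗[ℤ] 𝕋)).toRingHom.comp
    (Algebra.TensorProduct.includeRight : 𝕋 →ₐ[ℤ] Ω ⊗[ℤ] 𝕋).toRingHom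

omit [Module.Free ℤ 𝕋] [Module.Finite ℤ 𝕋] in
theorem s31tReg_apply (Ω : Type*) [Field Ω] (w : 𝕋) :
    s31tReg Ω w = (Algebra.lmul ℤ 𝕋 w).baseChange Ω :=
  (Algebra.baseChange_lmul (A := Ω) w).symm

/-- the trace of an element all of whose character values lie in an additive subgroup lies in that
subgroup -/
theorem s31t_trace_mem {Ω : Type*} [Field Ω] [IsAlgClosed Ω] (I : AddSubgroup Ω) (w : 𝕋)
    (h : ∀ ψ : 𝕋 →+* Ω, ψ w ∈ I) : ((Algebra.trace ℤ 𝕋 w : ℤ) : Ω) ∈ I := by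
  classical
  haveI : Module.Finite Ω (Ω ⊗[ℤ] 𝕋) := Module.Finite.base_change ℤ Ω 𝕋
  have h1 : LinearMap.trace Ω (Ω ⊗[ℤ] 𝕋) (s31tReg Ω w) = ((Algebra.trace ℤ 𝕋 w : ℤ) : Ω) := by
    rw [s31tReg_apply, LinearMap.trace_baseChange, Algebra.trace_apply]
    rfl
  rw [← h1, Module.End.trace_eq_sum_roots_charpoly_of_splits (IsAlgClosed.splits _)]
  refine Multiset.sum_induction (· ∈ I) _ (fun a b ha hb => I.add_mem ha hb) I.zero_mem ?_
  intro μ hμ
  have hroot : (LinearMap.charpoly (s31tReg Ω w)).IsRoot μ := (Polynomial.mem_roots'.mp hμ).2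
  obtain ⟨ψ, hψ⟩ := s31t_exists_character_of_isRoot (s31tReg Ω) w μ hroot
  exact hψ ▸ h ψ

/-- divisibility in `𝕋` from divisibility of the traces -/
theorem s31t_dvd_of_trace_dvd [IsReduced 𝕋] (p : ℕ) (hp : p.Prime) :
    ∃ c : ℕ, ∀ (m : ℕ) (t : 𝕋),
      (∀ y : 𝕋, ((p : ℤ) ^ (m + c)) ∣ Algebra.trace ℤ 𝕋 (t * y)) →
        ∃ t' : 𝕋, t = (p : 𝕋) ^ m * t' := by
  classical
  let b := Module.Free.chooseBasis ℤ 𝕋
  set G := Algebra.traceMatrix ℤ b with hG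
  have hD : G.det ≠ 0 := s31t_det_traceMatrix_ne_zero b
  have hpZ : Prime (p : ℤ) := Nat.prime_iff_prime_int.mp hp
  have hfin : FiniteMultiplicity (p : ℤ) G.det := by
    rw [Int.finiteMultiplicity_iff]
    exact ⟨by simpa using hp.ne_one, hD⟩
  obtain ⟨D', hD', hpD'⟩ := hfin.exists_eq_pow_mul_and_not_dvd
  set c := multiplicity (p : ℤ) G.det with hc
  refine ⟨c, fun m t ht => ?_⟩
  set x : Module.Free.ChooseBasisIndex ℤ 𝕋 → ℤ := fun j => b.repr t j with hx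
  have hGx : ∀ i, (G.mulVec x) i = Algebra.trace ℤ 𝕋 (t * b i) := by
    intro i
    rw [Matrix.mulVec, dotProduct]
    conv_rhs => rw [← b.sum_repr t, Finset.sum_mul, map_sum]
    refine Finset.sum_congr rfl fun j _ => ?_
    rw [hG, Algebra.traceMatrix_apply, Algebra.traceForm_apply, smul_mul_assoc, map_smul,
      smul_eq_mul, mul_comm (b j) (b i), mul_comm]
  have hdvd1 : ∀ j, ((p : ℤ) ^ (m + c)) ∣ G.det * x j := by
    intro j
    have h1 : G.det • x = G.adjugate.mulVec (G.mulVec x) := by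
      rw [Matrix.mulVec_mulVec, Matrix.adjugate_mul, Matrix.smul_mulVec, Matrix.one_mulVec]
    have h2 : G.det * x j = (G.adjugate.mulVec (G.mulVec x)) j := by
      rw [← h1]; rfl
    rw [h2, Matrix.mulVec, dotProduct]
    refine Finset.dvd_sum fun i _ => ?_
    rw [hGx]
    exact Dvd.dvd.mul_left (ht (b i)) _
  have hdvd2 : ∀ j, ((p : ℤ) ^ m) ∣ x j := by
    intro j
    have h1 := hdvd1 j
    rw [hD', pow_add, mul_comm ((p : ℤ) ^ m), mul_assoc] at h1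
    have h2 : (p : ℤ) ^ m ∣ D' * x j :=
      (mul_dvd_mul_iff_left (pow_ne_zero c hpZ.ne_zero)).mp h1
    exact hpZ.pow_dvd_of_dvd_mul_left m hpD' h2
  choose x' hx' using hdvd2
  refine ⟨∑ j, x' j • b j, ?_⟩
  conv_lhs => rw [← b.sum_repr t]
  rw [Finset.mul_sum]
  refine Finset.sum_congr rfl fun j _ => ?_
  have : b.repr t j = x j := rfl
  rw [this, hx' j, mul_smul, zsmul_eq_mul]
  push_cast
  rfl

/-- **the congruence lemma** -/
theorem s31t_congruence [IsReduced 𝕋] (p : ℕ) (hp : p.Prime) {Ω : Type*} [Field Ω]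
    [IsAlgClosed Ω] (A : Subring Ω) (hAint : ∀ x : Ω, IsIntegral ℤ x → x ∈ A)
    (hAdiv : ∀ (n : ℤ) (M : ℕ), (∃ a ∈ A, (n : Ω) = (p : Ω) ^ M * a) → ((p : ℤ) ^ M ∣ n)) :
    ∃ c : ℕ, ∀ (m : ℕ) (t : 𝕋),
      (∀ ψ : 𝕋 →+* Ω, ∃ a ∈ A, ψ t = (p : Ω) ^ (m + c) * a) → ∃ t' : 𝕋, t = (p : 𝕋) ^ m * t' := by
  obtain ⟨c, hc⟩ := s31t_dvd_of_trace_dvd (𝕋 := 𝕋) p hp
  refine ⟨c, fun m t ht => hc m t fun y => ?_⟩
  apply hAdiv
  let I : AddSubgroup Ω := A.toAddSubgroup.map (AddMonoidHom.mulLeft ((p : Ω) ^ (m + c)))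
  have hI : ∀ x : Ω, x ∈ I ↔ ∃ a ∈ A, x = (p : Ω) ^ (m + c) * a := by
    intro x
    constructor
    · rintro ⟨a, ha, rfl⟩
      exact ⟨a, ha, rfl⟩
    · rintro ⟨a, ha, rfl⟩
      exact ⟨a, ha, rfl⟩
  rw [← hI]
  apply s31t_trace_mem
  intro ψ
  rw [hI]
  obtain ⟨a, ha, hψ⟩ := ht ψ
  refine ⟨a * ψ y, A.mul_mem ha (hAint _ ?_), by rw [map_mul, hψ, mul_assoc]⟩
  haveI : Algebra.IsIntegral ℤ 𝕋 := Algebra.IsIntegral.of_finite ℤ 𝕋
  exact (Algebra.IsIntegral.isIntegral (R := ℤ) y).map ψ.toIntAlgHom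

end Fermat.Agent.S31T
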