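/-
S31-T (helper8): `p`-adic points of a ring which is finite over `ℤ`.

* `S31tOmega p = AlgebraicClosure ℚ_[p]`, `s31tInt p` its subring of integral elements; it contains
  all elements integral over `ℤ` and divisibility of integers by powers of `p` in it is the usual one.
* `s31t_exists_dvr_of_point` : every ring homomorphism `𝕋 → S31tOmega p` factors through a complete
  discrete valuation ring of characteristic zero with finite residue field (the ring of integers of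
  a finite extension of `ℚ_p`).
* `s31t_finite_ringHom` : there are finitely many such homomorphisms.
* `s31t_exists_ramification`, `s31t_dvd_of_map_dvd` : divisibility by powers of `p` in discrete
  valuation rings.
-/
import Mathlib
import Fermat.Agent.Lib.CFT.Local.QField

set_option autoImplicit false
set_option linter.style.haveILetI false

open IsLocalRing

namespace Fermat.Agent.S31T

open Fermat.Agent.CFT.Local

section padic

variable (p : ℕ) [Fact p.Prime]

/-- the `p`-adic algebraic closure -/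
abbrev S31tOmega : Type := AlgebraicClosure ℚ_[p]

/-- the subring of `p`-adic algebraic integers -/
noncomputable def s31tInt : Subring (S31tOmega p) := (integralClosure ℤ_[p] (S31tOmega p)).toSubring

theorem mem_s31tInt (x : S31tOmega p) : x ∈ s31tInt p ↔ IsIntegral ℤ_[p] x := Iff.rfl

theorem s31tInt_of_isIntegral (x : S31tOmega p) (hx : IsIntegral ℤ x) : x ∈ s31tInt p :=
  hx.tower_top

theorem s31tInt_dvd (n : ℤ) (M : ℕ)
    (h : ∃ a ∈ s31tInt p, (n : S31tOmega p) = (p : S31tOmega p) ^ M * a) : (p : ℤ) ^ M ∣ n := by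
  obtain ⟨a, ha, hna⟩ := h
  have hp0 : (p : ℚ_[p]) ≠ 0 := by exact_mod_cast (Fact.out : p.Prime).ne_zero
  have hpΩ : (p : S31tOmega p) ≠ 0 := by exact_mod_cast (Fact.out : p.Prime).ne_zero
  -- `a` comes from `ℚ_p`
  have ha' : a = algebraMap ℚ_[p] (S31tOmega p) ((n : ℚ_[p]) / (p : ℚ_[p]) ^ M) := by
    rw [map_div₀, map_pow, map_intCast, map_natCast, hna, mul_div_cancel_left₀ _ (pow_ne_zero M hpΩ)]
  have hint : IsIntegral ℤ_[p] ((n : ℚ_[p]) / (p : ℚ_[p]) ^ M) := by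
    rw [mem_s31tInt, ha'] at ha
    exact (isIntegral_algebraMap_iff (algebraMap ℚ_[p] (S31tOmega p)).injective).mp ha
  obtain ⟨y, hy⟩ := IsIntegrallyClosed.isIntegral_iff.mp hint
  rw [← PadicInt.pow_p_dvd_int_iff]
  refine ⟨y, ?_⟩
  apply Subtype.coe_injective
  have : ((y : ℤ_[p]) : ℚ_[p]) = (n : ℚ_[p]) / (p : ℚ_[p]) ^ M := hy
  push_cast
  rw [this, mul_div_cancel₀ _ (pow_ne_zero M hp0)]

/-- **the complete discrete valuation ring of a `p`-adic point** -/
theorem s31t_exists_dvr_of_point {𝕋 : Type} [CommRing 𝕋] [Module.Finite ℤ 𝕋]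
    (ψ : 𝕋 →+* S31tOmega p) :
    ∃ (𝒪 : Type) (_ : CommRing 𝒪) (_ : IsDomain 𝒪) (_ : IsDiscreteValuationRing 𝒪)
      (_ : IsAdicComplete (maximalIdeal 𝒪) 𝒪) (_ : Finite (ResidueField 𝒪)) (_ : CharZero 𝒪)
      (χ : 𝕋 →+* 𝒪) (ι : 𝒪 →+* S31tOmega p),
      (p : 𝒪) ∈ maximalIdeal 𝒪 ∧ (∀ t, ι (χ t) = ψ t) ∧ ∀ x, ι x ∈ s31tInt p := by
  classical
  have hintZ : ∀ b : 𝕋, IsIntegral ℤ b := fun b => Algebra.IsIntegral.isIntegral b
  have hint : ∀ b : 𝕋, IsIntegral ℤ_[p] (ψ b) := fun b =>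
    ((hintZ b).map ψ.toIntAlgHom).tower_top
  obtain ⟨s, hs⟩ := (Module.Finite.fg_top : (⊤ : Submodule ℤ 𝕋).FG)
  let E : IntermediateField ℚ_[p] (S31tOmega p) := IntermediateField.adjoin ℚ_[p] (ψ '' (s : Set 𝕋))
  haveI : Finite (ψ '' (s : Set 𝕋)) := (s.finite_toSet.image ψ).to_subtype
  haveI hfd : FiniteDimensional ℚ_[p] E := IntermediateField.finiteDimensional_adjoin (by
    rintro x ⟨t, -, rfl⟩
    exact (hint t).tower_top)
  have hmem : ∀ b, ψ b ∈ E := by
    intro b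
    have hb : b ∈ Submodule.span ℤ (s : Set 𝕋) := by rw [hs]; trivial
    induction hb using Submodule.span_induction with
    | mem t ht => exact IntermediateField.subset_adjoin ℚ_[p] _ ⟨t, ht, rfl⟩
    | zero => rw [map_zero]; exact E.zero_mem
    | add x y _ _ hx hy => rw [map_add]; exact E.add_mem hx hy
    | smul n x _ hx =>
      rw [zsmul_eq_mul, map_mul, map_intCast]
      exact E.mul_mem (E.intCast_mem n) hx
  have hinjE : Function.Injective (algebraMap ℤ_[p] ↥E) := by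
    rw [IsScalarTower.algebraMap_eq ℤ_[p] ℚ_[p] ↥E]
    exact (algebraMap ℚ_[p] ↥E).injective.comp (IsFractionRing.injective ℤ_[p] ℚ_[p])
  have hinj : Function.Injective (algebraMap ℤ_[p] ↥(OInt p ↥E)) := by
    rw [IsScalarTower.algebraMap_eq ℤ_[p] ↥(OInt p ↥E) ↥E, RingHom.coe_comp] at hinjE
    exact Function.Injective.of_comp hinjE
  haveI : FaithfulSMul ℤ_[p] ↥(OInt p ↥E) :=
    (faithfulSMul_iff_algebraMap_injective _ _).mpr hinj
  let ψ' : 𝕋 →+* ↥E := ψ.codRestrict E hmem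
  haveI : IsScalarTower ℤ_[p] ↥E (S31tOmega p) := IsScalarTower.of_algebraMap_eq fun x => rfl
  have hint' : ∀ b, ψ' b ∈ OInt p ↥E := by
    intro b
    have h1 : IsIntegral ℤ_[p] (algebraMap ↥E (S31tOmega p) (ψ' b)) := hint b
    exact (isIntegral_algebraMap_iff (algebraMap ↥E (S31tOmega p)).injective).mp h1
  haveI : IsLocalHom (algebraMap ℤ_[p] ↥(OInt p ↥E)) := inferInstance
  refine ⟨↥(OInt p ↥E), inferInstance, inferInstance, inferInstance, inferInstance,
    inferInstance, charZero_of_injective_algebraMap hinj,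
    ψ'.codRestrict (OInt p ↥E).toSubring hint',
    (algebraMap ↥E (S31tOmega p)).comp (OInt p ↥E).toSubring.subtype, ?_, fun t => rfl, ?_⟩
  · have h1 : (p : ℤ_[p]) ∈ maximalIdeal ℤ_[p] := by
      rw [PadicInt.maximalIdeal_eq_span_p]
      exact Ideal.subset_span rfl
    have h2 := map_nonunit (algebraMap ℤ_[p] ↥(OInt p ↥E)) _ h1
    rwa [map_natCast] at h2
  · intro x
    rw [mem_s31tInt]
    have h1 : IsIntegral ℤ_[p] (x : ↥E) := x.2
    exact h1.map (IsScalarTower.toAlgHom ℤ_[p] ↥E (S31tOmega p))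

end padic

/-- a ring which is finite over `ℤ` has finitely many homomorphisms to a domain -/
theorem s31t_finite_ringHom {𝕋 Ω : Type*} [CommRing 𝕋] [Module.Finite ℤ 𝕋] [CommRing Ω]
    [IsDomain Ω] : Finite (𝕋 →+* Ω) := by
  classical
  obtain ⟨s, hs⟩ := (Module.Finite.fg_top : (⊤ : Submodule ℤ 𝕋).FG)
  have hintZ : ∀ b : 𝕋, IsIntegral ℤ b := fun b => Algebra.IsIntegral.isIntegral b
  choose P hPmonic hP using hintZ
  let Q : 𝕋 → Polynomial Ω := fun b => (P b).map (Int.castRingHom Ω)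
  have hQ0 : ∀ b, Q b ≠ 0 := fun b => ((hPmonic b).map _).ne_zero
  have hroot : ∀ (ψ : 𝕋 →+* Ω) (b : 𝕋), ψ b ∈ (Q b).rootSet Ω := by
    intro ψ b
    rw [Polynomial.mem_rootSet]
    refine ⟨hQ0 b, ?_⟩
    rw [Polynomial.aeval_def, Polynomial.eval₂_map]
    have h1 : (algebraMap Ω Ω).comp (Int.castRingHom Ω) = ψ.comp (algebraMap ℤ 𝕋) :=
      RingHom.ext_int _ _
    rw [h1, ← Polynomial.hom_eval₂, hP, map_zero]
  let Φ : (𝕋 →+* Ω) → (∀ b : s, (Q b).rootSet Ω) := fun ψ b => ⟨ψ b, hroot ψ b⟩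
  haveI : ∀ b : s, Finite ((Q b).rootSet Ω) := fun b => (Polynomial.rootSet_finite _ _).to_subtype
  refine Finite.of_injective Φ ?_
  intro ψ₁ ψ₂ h
  ext t
  have ht : t ∈ Submodule.span ℤ (s : Set 𝕋) := by rw [hs]; trivial
  induction ht using Submodule.span_induction with
  | mem t ht =>
    have := congrFun h ⟨t, ht⟩
    exact congrArg Subtype.val this
  | zero => rw [map_zero, map_zero]
  | add x y _ _ hx hy => rw [map_add, map_add, hx, hy]
  | smul n x _ hx => rw [zsmul_eq_mul, map_mul, map_mul, map_intCast, map_intCast, hx]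

/-- in a discrete valuation ring in which `p ≠ 0`, high powers of the maximal ideal are divisible by
powers of `p` -/
theorem s31t_exists_ramification {𝒪 : Type*} [CommRing 𝒪] [IsDomain 𝒪]
    [IsDiscreteValuationRing 𝒪] (p : 𝒪) (hp : p ≠ 0) :
    ∃ e : ℕ, ∀ (M : ℕ) (y : 𝒪), y ∈ maximalIdeal 𝒪 ^ (e * M) → p ^ M ∣ y := by
  obtain ⟨ϖ, hϖ⟩ := IsDiscreteValuationRing.exists_irreducible 𝒪
  obtain ⟨e, u, hu⟩ := IsDiscreteValuationRing.eq_unit_mul_pow_irreducible hp hϖ
  refine ⟨e, fun M y hy => ?_⟩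
  rw [hϖ.maximalIdeal_eq, Ideal.span_singleton_pow, Ideal.mem_span_singleton] at hy
  obtain ⟨z, rfl⟩ := hy
  refine ⟨((u⁻¹ : 𝒪ˣ) : 𝒪) ^ M * z, ?_⟩
  rw [hu, mul_pow, ← pow_mul, ← mul_assoc, mul_comm ((u : 𝒪) ^ M), mul_assoc (ϖ ^ (e * M)),
    ← mul_pow, Units.mul_inv, one_pow, mul_one]

/-- descent of divisibility along a local homomorphism from a valuation ring to a domain -/
theorem s31t_dvd_of_map_dvd {𝒪 𝒪' : Type*} [CommRing 𝒪] [IsDomain 𝒪] [ValuationRing 𝒪]
    [CommRing 𝒪'] [IsDomain 𝒪'] (f : 𝒪 →+* 𝒪') [IsLocalHom f] (a x : 𝒪) (ha : f a ≠ 0)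
    (h : f a ∣ f x) : a ∣ x := by
  rcases ValuationRing.dvd_total a x with h1 | ⟨y, hy⟩
  · exact h1
  · obtain ⟨z, hz⟩ := h
    have h2 : f a * (z * f y) = f a * 1 := by
      rw [mul_one, ← mul_assoc, ← hz, ← map_mul, ← hy]
    have h3 : z * f y = 1 := mul_left_cancel₀ ha h2
    have hyu : IsUnit (f y) := IsUnit.of_mul_eq_one_right _ h3
    have hyu' : IsUnit y := isUnit_of_map_unit f y hyu
    obtain ⟨u, rfl⟩ := hyu'
    exact ⟨((u⁻¹ : 𝒪ˣ) : 𝒪), by rw [hy, mul_assoc, Units.mul_inv, mul_one]⟩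

end Fermat.Agent.S31T
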