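/-
S31-T (helper8): the Galois representation attached (by S30) to a `p`-adic point of the Hecke algebra,
and the resulting congruence for the values of the point.
-/
import Mathlib
import Fermat.Agent.Lib.T1.Asm.Res.S29Glue
import Fermat.Agent.Lib.S31.Trace.Points
import Fermat.Agent.Lib.S31.Trace.TraceCong

set_option autoImplicit false
set_option linter.style.haveILetI false
set_option linter.unusedSectionVars false

open Polynomial IsLocalRing CuspForm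

namespace Fermat.Agent.S31T

local notation "Qbar" => AlgebraicClosure ℚ
local notation "GQ" => (AlgebraicClosure ℚ ≃ₐ[ℚ] AlgebraicClosure ℚ)

open Fermat.Agent.T1 (TerS30)

/-- the representation attached to a `p`-adic point of the Hecke algebra -/
theorem s31t_point_rep (h30 : TerS30) (p : ℕ) [Fact p.Prime] (N : ℕ) [NeZero N] (S : Finset ℕ)
    (hpS : p ∈ S) (hNS : ∀ q : ℕ, q.Prime → q ∣ N → q ∈ S)
    (ψ : heckeAlgebra N 2 (↑S : Set ℕ) →+* S31tOmega p) :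
    ∃ (𝒪'' : Type) (_ : CommRing 𝒪'') (_ : IsLocalRing 𝒪'') (ρ : GaloisRepAdic 𝒪'')
      (κ : heckeAlgebra N 2 (↑S : Set ℕ) →+* 𝒪'') (e : ℕ),
      (∀ (ℓ : ℕ) (hℓ : ℓ.Prime) (hℓN : ¬ ℓ ∣ N) (hℓS : ℓ ∉ (↑S : Set ℕ)),
        ∀ A : ValuationSubring Qbar, A.LiesOverPrime ℓ → ∀ σ : GQ, A.IsFrobeniusAt σ ℓ →
          LinearMap.charpoly (ρ.ρ σ) =
            X ^ 2 - C (κ (heckeAlgebra.T hℓ hℓN hℓS)) * X + C ((ℓ : 𝒪''))) ∧
      (∀ q : ℕ, q.Prime → ¬ q ∣ N → q ≠ p → ρ.IsUnramifiedAt q) ∧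
      (∀ (M : ℕ) (t : heckeAlgebra N 2 (↑S : Set ℕ)), κ t ∈ maximalIdeal 𝒪'' ^ (e * M) →
        ∃ a ∈ s31tInt p, ψ t = (p : S31tOmega p) ^ M * a) := by
  haveI : Module.Finite ℤ (heckeAlgebra N 2 (↑S : Set ℕ)) :=
    Fermat.Agent.S22Lib.moduleFinite_heckeAlgebra N 2 _
  obtain ⟨𝒪, i1, i2, i3, i4, i5, i6, χ, ι, hp𝒪, hι, hιA⟩ := s31t_exists_dvr_of_point p ψ
  obtain ⟨𝒪'', j1, j2, j3, j4, j5, j6, j7, j8, j9, hinj, ρ, hfrob, hunr⟩ :=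
    h30 p N S hpS hNS 𝒪 hp𝒪 χ
  have hp0 : (p : 𝒪'') ≠ 0 := by exact_mod_cast (Fact.out : p.Prime).ne_zero
  obtain ⟨e, he⟩ := s31t_exists_ramification (p : 𝒪'') hp0
  refine ⟨𝒪'', inferInstance, inferInstance, ρ, (algebraMap 𝒪 𝒪'').comp χ, e, hfrob, hunr, ?_⟩
  intro M t ht
  have h1 : (p : 𝒪'') ^ M ∣ algebraMap 𝒪 𝒪'' (χ t) := he M _ ht
  have h2 : algebraMap 𝒪 𝒪'' ((p : 𝒪) ^ M) ∣ algebraMap 𝒪 𝒪'' (χ t) := by
    rwa [map_pow, map_natCast]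
  have h3 : (p : 𝒪) ^ M ∣ χ t := by
    refine s31t_dvd_of_map_dvd (algebraMap 𝒪 𝒪'') _ _ ?_ h2
    rw [map_pow, map_natCast]
    exact pow_ne_zero M hp0
  obtain ⟨y, hy⟩ := h3
  refine ⟨ι y, hιA y, ?_⟩
  rw [← hι, hy, map_mul, map_pow, map_natCast]

/-- **the congruence at a point**: on a suitable finite level, the value of the point at the
difference of the power traces attached to `g σ` and `g` (`σ` in an inertia group at `q ∉ S`) is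
divisible by `p ^ M` -/
theorem s31t_point_congr (h30 : TerS30) (p : ℕ) [Fact p.Prime] (N : ℕ) [NeZero N] (S : Finset ℕ)
    (hpS : p ∈ S) (hNS : ∀ q : ℕ, q.Prime → q ∣ N → q ∈ S)
    (ψ : heckeAlgebra N 2 (↑S : Set ℕ) →+* S31tOmega p)
    (q : ℕ) (hq : q.Prime) (hqN : ¬ q ∣ N) (hqp : q ≠ p) (M : ℕ) :
    ∃ L : IntermediateField ℚ Qbar, FiniteDimensional ℚ L ∧
      ∀ (P : ValuationSubring Qbar), P.LiesOverPrime q → ∀ σ ∈ P.inertiaSubgroupIn ℚ,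
      ∀ (g : GQ)
        (l : ℕ) (hl : l.Prime) (hlN : ¬ l ∣ N) (hlS : l ∉ (↑S : Set ℕ))
        (P₁ : ValuationSubring Qbar) (φ₁ : GQ) (b₁ : ℕ),
        P₁.LiesOverPrime l → P₁.IsFrobeniusAt φ₁ l → (∀ x ∈ L, g x = (φ₁ ^ b₁) x) →
      ∀ (l' : ℕ) (hl' : l'.Prime) (hl'N : ¬ l' ∣ N) (hl'S : l' ∉ (↑S : Set ℕ))
        (P₂ : ValuationSubring Qbar) (φ₂ : GQ) (b₂ : ℕ),
        P₂.LiesOverPrime l' → P₂.IsFrobeniusAt φ₂ l' → (∀ x ∈ L, (g * σ) x = (φ₂ ^ b₂) x) →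
      ∃ a ∈ s31tInt p,
        ψ (s31tPow (heckeAlgebra.T hl' hl'N hl'S) (l' : heckeAlgebra N 2 (↑S : Set ℕ)) b₂
            - s31tPow (heckeAlgebra.T hl hlN hlS) (l : heckeAlgebra N 2 (↑S : Set ℕ)) b₁)
          = (p : S31tOmega p) ^ M * a := by
  obtain ⟨𝒪'', i1, i2, ρ, κ, e, hfrob, hunr, hdiv⟩ := s31t_point_rep h30 p N S hpS hNS ψ
  obtain ⟨L, hLfin, hL⟩ := ρ.isAdicContinuous (e * M)
  refine ⟨L, hLfin, ?_⟩
  intro P hP σ hσ g l hl hlN hlS P₁ φ₁ b₁ hP₁ hφ₁ hg l' hl' hl'N hl'S P₂ φ₂ b₂ hP₂ hφ₂ hgσ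
  apply hdiv
  have hσ1 : ρ.ρ σ = 1 := hunr q hq hqN hqp P hP σ hσ
  have h1 := s31t_trace_congr ρ (e * M) L hL g φ₁ b₁ hg _ _ (hfrob l hl hlN hlS P₁ hP₁ φ₁ hφ₁)
  have h2 := s31t_trace_congr ρ (e * M) L hL (g * σ) φ₂ b₂ hgσ _ _
    (hfrob l' hl' hl'N hl'S P₂ hP₂ φ₂ hφ₂)
  rw [map_mul, hσ1, mul_one] at h2
  rw [map_sub, map_s31tPow, map_s31tPow, map_natCast, map_natCast]
  have := (maximalIdeal 𝒪'' ^ (e * M)).sub_mem h1 h2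
  rwa [sub_sub_sub_cancel_left] at this

end Fermat.Agent.S31T
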