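/-
S31-T (helper8): **S30 + reducedness of the Hecke algebra ⟹ S31**.

`s31_of_s30 : TerS30 → IsReduced (heckeAlgebra N 2 ↑S) → (statement S31)`: the Galois representation
of a Hecke–Galois datum is unramified at every prime `q ∉ S`.

For `σ` in an inertia group at `q` and `g ∈ G_ℚ` we show `tr ρ(g σ) ≡ tr ρ(g)` modulo `𝔪_T ^ n` for
every `n`: on a finite level, `g` and `g σ` are Frobenius powers (`s31t_exists_frobenius_pow`), so the
difference of the traces is `π(t)` for an explicit `t ∈ 𝕋`; all `p`-adic points of `𝕋` kill `t` modulo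
`p ^ (n + c)` because the representations attached to them by S30 are unramified at `q`
(`s31t_point_congr`); by the congruence lemma (`s31t_congruence`, which uses that `𝕋` is reduced)
`t ∈ p ^ n 𝕋`.  Then `s31t_eq_one_of_trace` (residual absolute irreducibility) gives `ρ(σ) = 1`.
-/
import Mathlib
import Fermat.Agent.Lib.S31.Trace.Congruence
import Fermat.Agent.Lib.S31.Trace.PointRep
import Fermat.Agent.Lib.S31.Trace.FrobPow
import Fermat.Agent.Lib.S31.Trace.Unram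
import Fermat.Prelude.Def_CuspForm_HeckeGaloisRepDatum

set_option autoImplicit false
set_option linter.style.haveILetI false
set_option linter.unusedSectionVars false

open Polynomial IsLocalRing CuspForm

namespace Fermat.Agent.S31T

local notation "Qbar" => AlgebraicClosure ℚ
local notation "GQ" => (AlgebraicClosure ℚ ≃ₐ[ℚ] AlgebraicClosure ℚ)

open Fermat.Agent.T1 (TerS30)

variable {p : ℕ} {N : ℕ} [NeZero N] {S : Finset ℕ}
  {𝒪 : Type} [CommRing 𝒪] [IsDomain 𝒪] [IsDiscreteValuationRing 𝒪]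
  [IsAdicComplete (IsLocalRing.maximalIdeal 𝒪) 𝒪]
  {θ : CuspForm.heckeAlgebra N 2 (↑S : Set ℕ) →+* IsLocalRing.ResidueField 𝒪}
  {T : Type} [CommRing T] [IsLocalRing T] [IsNoetherianRing T]
  [IsAdicComplete (IsLocalRing.maximalIdeal T) T] [Algebra 𝒪 T] [IsLocalHom (algebraMap 𝒪 T)]
  [Module.Finite 𝒪 T] [Module.Free 𝒪 T]

/-- **S30 and the reducedness of the Hecke algebra imply S31** -/
theorem s31_of_s30 (h30 : TerS30) (hred : IsReduced (CuspForm.heckeAlgebra N 2 (↑S : Set ℕ)))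
    (hp : p.Prime)
    (hp𝒪 : (p : 𝒪) ∈ IsLocalRing.maximalIdeal 𝒪) (hpS : p ∈ S)
    (hNS : ∀ q : ℕ, q.Prime → q ∣ N → q ∈ S)
    (H : CuspForm.HeckeGaloisRepDatum N (↑S : Set ℕ) 𝒪 θ T)
    (q : ℕ) (hq : q.Prime) (hqS : q ∉ S) :
    H.ρ.IsUnramifiedAt q := by
  classical
  haveI : Fact p.Prime := ⟨hp⟩
  haveI := Fermat.Agent.Lib.Helper6.isGalois_rat_algebraicClosure
  haveI : Module.Finite ℤ (heckeAlgebra N 2 (↑S : Set ℕ)) :=
    Fermat.Agent.S22Lib.moduleFinite_heckeAlgebra N 2 _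
  haveI : Module.Free ℤ (heckeAlgebra N 2 (↑S : Set ℕ)) :=
    Module.free_of_finite_type_torsion_free'
  have hqN : ¬ q ∣ N := fun h => hqS (hNS q hq h)
  have hqp : q ≠ p := fun h => hqS (h ▸ hpS)
  -- the congruence constant
  obtain ⟨c, hc⟩ := s31t_congruence (𝕋 := heckeAlgebra N 2 (↑S : Set ℕ)) p hp (s31tInt p)
    (s31tInt_of_isIntegral p) (s31tInt_dvd p)
  haveI : Finite (heckeAlgebra N 2 (↑S : Set ℕ) →+* S31tOmega p) := s31t_finite_ringHom
  have hpT : (p : T) ∈ maximalIdeal T := by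
    have := map_nonunit (algebraMap 𝒪 T) _ hp𝒪
    rwa [map_natCast] at this
  intro P hP σ hσ
  apply s31t_eq_one_of_trace H.ρ H.residual_absIrr σ
  intro g
  have hkrull : ⨅ i, maximalIdeal T ^ i = ⊥ :=
    Ideal.iInf_pow_eq_bot_of_isLocalRing _ (Ideal.IsMaximal.ne_top inferInstance)
  rw [← sub_eq_zero, ← Ideal.mem_bot, ← hkrull, Ideal.mem_iInf]
  intro n
  -- the levels
  obtain ⟨LT, hLTfin, hLT⟩ := H.ρ.isAdicContinuous n
  choose Lψ hLψfin hLψ using fun ψ : heckeAlgebra N 2 (↑S : Set ℕ) →+* S31tOmega p =>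
    s31t_point_congr h30 p N S hpS hNS ψ q hq hqN hqp (n + c)
  haveI := hLTfin
  haveI := hLψfin
  let L₀ : IntermediateField ℚ Qbar := LT ⊔ ⨆ ψ, Lψ ψ
  haveI : FiniteDimensional ℚ L₀ := IntermediateField.finiteDimensional_sup _ _
  set L := IntermediateField.normalClosure ℚ L₀ Qbar with hL
  haveI : FiniteDimensional ℚ L := normalClosure.is_finiteDimensional ℚ L₀ Qbar
  haveI : Normal ℚ L := normalClosure.normal ℚ L₀ Qbar
  have hL₀L : L₀ ≤ L := IntermediateField.le_normalClosure L₀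
  have hLTL : LT ≤ L := le_trans le_sup_left hL₀L
  have hLψL : ∀ ψ, Lψ ψ ≤ L := fun ψ =>
    le_trans (le_trans (le_iSup Lψ ψ) le_sup_right) hL₀L
  -- Frobenius powers
  obtain ⟨l, hl, hlS, P₁, φ₁, hP₁, hφ₁, b₁, hb₁⟩ := s31t_exists_frobenius_pow L g S
  obtain ⟨l', hl', hl'S, P₂, φ₂, hP₂, hφ₂, b₂, hb₂⟩ := s31t_exists_frobenius_pow L (g * σ) S
  have hlN : ¬ l ∣ N := fun h => hlS (hNS l hl h)
  have hl'N : ¬ l' ∣ N := fun h => hl'S (hNS l' hl' h)
  have hlS' : l ∉ (↑S : Set ℕ) := hlS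
  have hl'S' : l' ∉ (↑S : Set ℕ) := hl'S
  set t : heckeAlgebra N 2 (↑S : Set ℕ) :=
    s31tPow (heckeAlgebra.T hl' hl'N hl'S') (l' : heckeAlgebra N 2 (↑S : Set ℕ)) b₂
      - s31tPow (heckeAlgebra.T hl hlN hlS') (l : heckeAlgebra N 2 (↑S : Set ℕ)) b₁ with ht
  -- all points kill `t` modulo `p ^ (n + c)`
  have hpts : ∀ ψ : heckeAlgebra N 2 (↑S : Set ℕ) →+* S31tOmega p,
      ∃ a ∈ s31tInt p, ψ t = (p : S31tOmega p) ^ (n + c) * a := by
    intro ψ
    exact hLψ ψ P hP σ hσ g l hl hlN hlS' P₁ φ₁ b₁ hP₁ hφ₁ (fun x hx => hb₁ x (hLψL ψ hx))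
      l' hl' hl'N hl'S' P₂ φ₂ b₂ hP₂ hφ₂ (fun x hx => hb₂ x (hLψL ψ hx))
  obtain ⟨t', ht'⟩ := hc n t hpts
  have hπt : H.π t ∈ maximalIdeal T ^ n := by
    rw [ht', map_mul, map_pow, map_natCast]
    exact Ideal.mul_mem_right _ _ (Ideal.pow_mem_pow hpT n)
  -- the trace congruences over `T`
  have hLT' : ∀ τ : GQ, (∀ x ∈ L, τ x = x) →
      ∀ v : H.ρ.V, H.ρ.ρ τ v - v ∈ (maximalIdeal T ^ n) • (⊤ : Submodule T H.ρ.V) :=
    fun τ hτ => hLT τ fun x hx => hτ x (hLTL hx)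
  have h1 := s31t_trace_congr H.ρ n L hLT' g φ₁ b₁ hb₁ _ _
    (H.charpoly_frob l hl hlN hlS' P₁ hP₁ φ₁ hφ₁)
  have h2 := s31t_trace_congr H.ρ n L hLT' (g * σ) φ₂ b₂ hb₂ _ _
    (H.charpoly_frob l' hl' hl'N hl'S' P₂ hP₂ φ₂ hφ₂)
  have hπ : H.π t = s31tPow (H.π (heckeAlgebra.T hl' hl'N hl'S')) (l' : T) b₂
      - s31tPow (H.π (heckeAlgebra.T hl hlN hlS')) (l : T) b₁ := by
    rw [ht, map_sub, map_s31tPow, map_s31tPow, map_natCast, map_natCast]
  have h3 := (maximalIdeal T ^ n).add_mem ((maximalIdeal T ^ n).sub_mem h2 h1) hπt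
  rw [hπ] at h3
  have h4 : LinearMap.trace T H.ρ.V (H.ρ.ρ (g * σ)) - LinearMap.trace T H.ρ.V (H.ρ.ρ g)
      = (LinearMap.trace T H.ρ.V (H.ρ.ρ (g * σ))
            - s31tPow (H.π (heckeAlgebra.T hl' hl'N hl'S')) (l' : T) b₂
          - (LinearMap.trace T H.ρ.V (H.ρ.ρ g)
            - s31tPow (H.π (heckeAlgebra.T hl hlN hlS')) (l : T) b₁))
        + (s31tPow (H.π (heckeAlgebra.T hl' hl'N hl'S')) (l' : T) b₂
          - s31tPow (H.π (heckeAlgebra.T hl hlN hlS')) (l : T) b₁) := by ring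
  rw [h4]
  exact h3

end Fermat.Agent.S31T
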