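/-
S31-T (helper8): common eigenvectors of a commutative ring of operators over an algebraically closed
field; every eigenvalue of an operator of the ring is the value of a character of the ring.
-/
import Mathlib

set_option autoImplicit false
set_option linter.style.haveILetI false

namespace Fermat.Agent.S31T

open Module

variable {K V R : Type*} [Field K] [AddCommGroup V] [Module K V] [CommRing R]

theorem s31t_commute (ρ : R →+* Module.End K V) (r s : R) (x : V) :
    ρ r (ρ s x) = ρ s (ρ r x) := by
  rw [← Module.End.mul_apply, ← Module.End.mul_apply, ← map_mul, ← map_mul, mul_comm]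

/-- a commutative ring acting on a finite-dimensional vector space over an algebraically closed
field has a common eigenvector in every nonzero invariant subspace -/
theorem s31t_exists_common_eigenvector [IsAlgClosed K] [FiniteDimensional K V]
    (ρ : R →+* Module.End K V) (W : Submodule K V) (hW : W ≠ ⊥)
    (hinv : ∀ r, ∀ x ∈ W, ρ r x ∈ W) :
    ∃ v ∈ W, v ≠ 0 ∧ ∀ r, ∃ c : K, ρ r v = c • v := by
  induction hn : finrank K W using Nat.strong_induction_on generalizing W with
  | _ n ih =>
    by_cases hA : ∀ r, ∃ c : K, ∀ x ∈ W, ρ r x = c • x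
    · obtain ⟨v, hvW, hv0⟩ := Submodule.exists_mem_ne_zero_of_ne_bot hW
      refine ⟨v, hvW, hv0, fun r => ?_⟩
      obtain ⟨c, hc⟩ := hA r
      exact ⟨c, hc v hvW⟩
    · push Not at hA
      obtain ⟨r, hr⟩ := hA
      haveI : Nontrivial W := Submodule.nontrivial_iff_ne_bot.mpr hW
      let f : Module.End K W := (ρ r).restrict (hinv r)
      obtain ⟨μ, hμ⟩ := Module.End.exists_eigenvalue f
      obtain ⟨y, hy⟩ := hμ.exists_hasEigenvector
      have hy0 : (y : V) ≠ 0 := fun h => hy.2 (Subtype.ext h)
      have hyeig : ρ r (y : V) = μ • (y : V) := by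
        have := hy.apply_eq_smul
        exact congrArg Subtype.val this
      set W' : Submodule K V := W ⊓ Module.End.eigenspace (ρ r) μ with hW'
      have hyW' : (y : V) ∈ W' :=
        ⟨y.2, Module.End.mem_eigenspace_iff.mpr hyeig⟩
      have hW'0 : W' ≠ ⊥ := fun h => hy0 ((Submodule.mem_bot K).mp (h ▸ hyW'))
      have hinv' : ∀ s, ∀ x ∈ W', ρ s x ∈ W' := by
        intro s x hx
        refine ⟨hinv s x hx.1, ?_⟩
        show ρ s x ∈ Module.End.eigenspace (ρ r) μ
        rw [Module.End.mem_eigenspace_iff, s31t_commute, Module.End.mem_eigenspace_iff.mp hx.2,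
          map_smul]
      have hlt : W' < W := by
        refine lt_of_le_of_ne inf_le_left fun heq => ?_
        obtain ⟨x, hxW, hx⟩ := hr μ
        have : x ∈ W' := heq ▸ hxW
        exact hx (Module.End.mem_eigenspace_iff.mp this.2)
      have hfr : finrank K W' < n := hn ▸ Submodule.finrank_lt_finrank_of_lt hlt
      obtain ⟨v, hvW', hv0, hv⟩ := ih _ hfr W' hW'0 hinv' rfl
      exact ⟨v, hvW'.1, hv0, hv⟩

/-- the character of a common eigenvector -/
theorem s31t_exists_character_of_eigenvector (ρ : R →+* Module.End K V) (v : V) (hv : v ≠ 0)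
    (h : ∀ r, ∃ c : K, ρ r v = c • v) : ∃ ψ : R →+* K, ∀ r, ρ r v = ψ r • v := by
  classical
  choose ψ hψ using h
  have hinj : ∀ c c' : K, c • v = c' • v → c = c' := fun c c' hc => smul_left_injective K hv hc
  refine ⟨{ toFun := ψ
            map_one' := ?_
            map_mul' := ?_
            map_zero' := ?_
            map_add' := ?_ }, hψ⟩
  · apply hinj
    rw [← hψ, map_one, Module.End.one_apply, one_smul]
  · intro r s
    apply hinj
    rw [← hψ, map_mul, Module.End.mul_apply, hψ s, map_smul, hψ r, smul_smul, mul_comm]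
  · apply hinj
    rw [← hψ, map_zero, LinearMap.zero_apply, zero_smul]
  · intro r s
    apply hinj
    rw [← hψ, map_add, LinearMap.add_apply, hψ r, hψ s, add_smul]

/-- every eigenvalue of an operator of a commutative ring of operators is the value of a
character -/
theorem s31t_exists_character_of_hasEigenvalue [IsAlgClosed K] [FiniteDimensional K V]
    (ρ : R →+* Module.End K V) (w : R) (μ : K) (hμ : (ρ w).HasEigenvalue μ) :
    ∃ ψ : R →+* K, ψ w = μ := by
  have hinv : ∀ r, ∀ x ∈ Module.End.eigenspace (ρ w) μ, ρ r x ∈ Module.End.eigenspace (ρ w) μ := by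
    intro r x hx
    rw [Module.End.mem_eigenspace_iff, s31t_commute, Module.End.mem_eigenspace_iff.mp hx, map_smul]
  obtain ⟨v, hvW, hv0, hv⟩ := s31t_exists_common_eigenvector ρ _ hμ hinv
  obtain ⟨ψ, hψ⟩ := s31t_exists_character_of_eigenvector ρ v hv0 hv
  refine ⟨ψ, ?_⟩
  have h1 := hψ w
  rw [Module.End.mem_eigenspace_iff.mp hvW] at h1
  exact (smul_left_injective K hv0 h1).symm

/-- every root of the characteristic polynomial of an operator of a commutative ring of operators
is the value of a character -/
theorem s31t_exists_character_of_isRoot [IsAlgClosed K] [FiniteDimensional K V]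
    (ρ : R →+* Module.End K V) (w : R) (μ : K) (hμ : (LinearMap.charpoly (ρ w)).IsRoot μ) :
    ∃ ψ : R →+* K, ψ w = μ :=
  s31t_exists_character_of_hasEigenvalue ρ w μ
    ((Module.End.hasEigenvalue_iff_isRoot_charpoly (ρ w) μ).mpr hμ)

end Fermat.Agent.S31T
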